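import Fermat.Agent.Comb.Scott
import Fermat.Agent.Gam0.Index

set_option autoImplicit false

open ModularGroup Matrix

namespace Fermat.Agent.Comb

open Fermat.Agent.Gam0

theorem orb_inv {G X : Type*} [Group G] [MulAction G X] (g : G) : orb X g⁻¹ = orb X g := by
  rw [orb, orb, Subgroup.zpowers_inv]

theorem closure_S_ST_T :
    Subgroup.closure {(S⁻¹ : SpecialLinearGroup (Fin 2) ℤ), S * T, T⁻¹} = ⊤ := by
  rw [eq_top_iff, ← SpecialLinearGroup.SL2Z_generators, Subgroup.closure_le]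
  have hS : S ∈ Subgroup.closure {(S⁻¹ : SpecialLinearGroup (Fin 2) ℤ), S * T, T⁻¹} := by
    rw [← Subgroup.inv_mem_iff]
    exact Subgroup.subset_closure (by simp)
  have hT : T ∈ Subgroup.closure {(S⁻¹ : SpecialLinearGroup (Fin 2) ℤ), S * T, T⁻¹} := by
    rw [← Subgroup.inv_mem_iff]
    exact Subgroup.subset_closure (by simp)
  rintro x (rfl | rfl)
  · exact hS
  · exact hT

theorem orb_S_add_orb_ST_add_orb_T_le (N : ℕ) [NeZero N] :
    orb (X N) S + orb (X N) (S * T) + orb (X N) T ≤ Nat.card (X N) + 2 := by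
  have h := orb_add_orb_add_orb_le (X N) (a := S⁻¹) (b := S * T) (c := T⁻¹) (by group)
    closure_S_ST_T
  rwa [orb_inv, orb_inv] at h

theorem even_card_add_orb_S_ST_T (N : ℕ) [NeZero N] :
    Even (Nat.card (X N) + (orb (X N) S + orb (X N) (S * T) + orb (X N) T)) := by
  have h := even_card_add_orb (X N) (a := S⁻¹) (b := S * T) (c := T⁻¹) (by group)
  rwa [orb_inv, orb_inv] at h

/-- The genus formula is a natural number, computed by
`2 g = |X| + 2 - o(S) - o(ST) - o(T)`. -/
theorem exists_nat_genusFormula (N : ℕ) [NeZero N] :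
    ∃ g : ℕ, ModularCurve.genusFormula N = g ∧
      2 * g + (orb (X N) S + orb (X N) (S * T) + orb (X N) T) = Nat.card (X N) + 2 := by
  have h1 := orb_S_add_orb_ST_add_orb_T_le N
  obtain ⟨m, hm⟩ := even_card_add_orb_S_ST_T N
  have h2 := genusFormula_eq' N
  change 2 * ModularCurve.genusFormula N - 2 = (Nat.card (X N) : ℚ) - (orb (X N) S : ℚ) -
    (orb (X N) (S * T) : ℚ) - (orb (X N) T : ℚ) at h2
  obtain ⟨k, hk⟩ := Nat.exists_eq_add_of_le h1
  refine ⟨m + 1 - (orb (X N) S + orb (X N) (S * T) + orb (X N) T), ?_, ?_⟩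
  · have h3 : 2 * (m + 1 - (orb (X N) S + orb (X N) (S * T) + orb (X N) T)) +
        (orb (X N) S + orb (X N) (S * T) + orb (X N) T) = Nat.card (X N) + 2 := by omega
    have h4 := congrArg (Nat.cast : ℕ → ℚ) h3
    push_cast at h4 ⊢
    linarith
  · omega

end Fermat.Agent.Comb
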