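import Mathlib

set_option autoImplicit false

open Module

namespace Fermat.Agent.Comb

section LinearAlgebra

variable {K V : Type*} [Field K] [AddCommGroup V] [Module K V] [FiniteDimensional K V]

/-- Scott's lemma for three endomorphisms with product one. -/
theorem scott_linear (A B C : Module.End K V) (h : A * B * C = 1) :
    finrank K V + finrank K
        (LinearMap.range (1 - A) ⊔ LinearMap.range (1 - B) ⊔ LinearMap.range (1 - C) :
          Submodule K V) ≤
      finrank K (LinearMap.ker (1 - A) ⊓ LinearMap.ker (1 - B) ⊓ LinearMap.ker (1 - C) :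
          Submodule K V) +
      (finrank K (LinearMap.range (1 - A)) + finrank K (LinearMap.range (1 - B)) +
        finrank K (LinearMap.range (1 - C))) := by
  let RA := LinearMap.range (1 - A)
  let RB := LinearMap.range (1 - B)
  let RC := LinearMap.range (1 - C)
  let Φ : V →ₗ[K] (RA × RB) × RC :=
    ((1 - A).rangeRestrict.prod (1 - B).rangeRestrict).prod (1 - C).rangeRestrict
  let Ψ : ((RA × RB) × RC) →ₗ[K] V :=
    (RA.subtype.coprod (A ∘ₗ RB.subtype)).coprod ((A * B) ∘ₗ RC.subtype)
  have hΨΦ : ∀ v, Ψ (Φ v) = 0 := by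
    intro v
    have h1 : A (B (C v)) = v := by
      have := congrArg (fun f : Module.End K V => f v) h
      simpa using this
    simp [Ψ, Φ, h1]
  have hker : LinearMap.ker Φ = LinearMap.ker (1 - A) ⊓ LinearMap.ker (1 - B) ⊓
      LinearMap.ker (1 - C) := by
    ext v
    simp [Φ]
  have hrange : (RA ⊔ RB ⊔ RC : Submodule K V) ≤ LinearMap.range Ψ := by
    have hA : RA ≤ LinearMap.range Ψ := by
      intro w hw
      exact ⟨((⟨w, hw⟩, 0), 0), by simp [Ψ]⟩
    have hB : RB ≤ LinearMap.range Ψ := by
      intro w hw
      have h1 : A w ∈ LinearMap.range Ψ := ⟨((0, ⟨w, hw⟩), 0), by simp [Ψ]⟩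
      have h2 : w - A w ∈ LinearMap.range Ψ := hA ⟨w, by simp⟩
      simpa using Submodule.add_mem _ h2 h1
    have hC : RC ≤ LinearMap.range Ψ := by
      intro w hw
      have h1 : A (B w) ∈ LinearMap.range Ψ := ⟨((0, 0), ⟨w, hw⟩), by simp [Ψ]⟩
      have h2 : B w - A (B w) ∈ LinearMap.range Ψ := hA ⟨B w, by simp⟩
      have h3 : w - B w ∈ LinearMap.range Ψ := hB ⟨w, by simp⟩
      have := Submodule.add_mem _ h3 (Submodule.add_mem _ h2 h1)
      simpa using this
    exact sup_le (sup_le hA hB) hC
  have h1 := LinearMap.finrank_range_add_finrank_ker Φ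
  have h2 := LinearMap.finrank_range_add_finrank_ker Ψ
  have h3 : finrank K (LinearMap.range Φ) ≤ finrank K (LinearMap.ker Ψ) :=
    Submodule.finrank_mono (by
      rintro _ ⟨v, rfl⟩
      exact hΨΦ v)
  have h4 := Submodule.finrank_mono hrange
  rw [hker] at h1
  simp only [Module.finrank_prod] at h2
  change finrank K V + finrank K (RA ⊔ RB ⊔ RC : Submodule K V) ≤
    _ + (finrank K RA + finrank K RB + finrank K RC)
  omega

end LinearAlgebra

section Orbits

open MulAction

variable {G X : Type*} [Group G] [MulAction G X] [Finite X]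

/-- The number of orbits of `g` acting on `X`. -/
noncomputable def orb (X : Type*) [MulAction G X] (g : G) : ℕ :=
  Nat.card (MulAction.orbitRel.Quotient (Subgroup.zpowers g) X)

/-- The permutation operator on functions. -/
noncomputable def permOp (X : Type*) [MulAction G X] (g : G) : Module.End ℚ (X → ℚ) :=
  LinearMap.funLeft ℚ ℚ (fun x => g⁻¹ • x)

omit [Finite X] in
theorem permOp_apply (g : G) (f : X → ℚ) (x : X) : permOp X g f x = f (g⁻¹ • x) := rfl

omit [Finite X] in
theorem permOp_mul (g h : G) : permOp X (g * h) = permOp X g * permOp X h := by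
  ext f x
  simp [permOp, LinearMap.funLeft, mul_smul]

omit [Finite X] in
theorem mem_ker_permOp_iff (g : G) (f : X → ℚ) :
    f ∈ LinearMap.ker (1 - permOp X g) ↔ ∀ x, f (g • x) = f x := by
  rw [LinearMap.mem_ker, LinearMap.sub_apply, sub_eq_zero]
  constructor
  · intro h x
    have := congrFun h (g • x)
    simpa [permOp_apply] using this
  · intro h
    funext x
    have := h (g⁻¹ • x)
    simpa [permOp_apply] using this

omit [Finite X] in
theorem invariant_zpow {g : G} {f : X → ℚ} (h : ∀ x, f (g • x) = f x) (n : ℤ) (x : X) :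
    f (g ^ n • x) = f x := by
  induction n using Int.induction_on with
  | zero => simp
  | succ n ih => rw [add_comm, zpow_add, zpow_one, mul_smul, h, ih]
  | pred n ih =>
    rw [← ih, ← h (g ^ (-(n : ℤ) - 1) • x), smul_smul, ← zpow_one_add]
    congr 2
    ring_nf

theorem finrank_ker_permOp (g : G) :
    finrank ℚ (LinearMap.ker (1 - permOp X g)) = orb X g := by
  classical
  let Q := MulAction.orbitRel.Quotient (Subgroup.zpowers g) X
  have : Fintype Q := Fintype.ofFinite _
  let e : (LinearMap.ker (1 - permOp X g)) ≃ₗ[ℚ] (Q → ℚ) :=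
    { toFun := fun f q => Quotient.lift f.1 (by
        rintro a b ⟨⟨_, n, rfl⟩, hn⟩
        rw [← hn]
        exact invariant_zpow ((mem_ker_permOp_iff g f.1).mp f.2) n b) q
      invFun := fun F => ⟨fun x => F (Quotient.mk'' x), by
        rw [mem_ker_permOp_iff]
        intro x
        congr 1
        apply Quotient.sound
        exact ⟨⟨g, Subgroup.mem_zpowers g⟩, rfl⟩⟩
      map_add' := fun f f' => by
        funext q
        induction q using Quotient.inductionOn with
        | h x => rfl
      map_smul' := fun c f => by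
        funext q
        induction q using Quotient.inductionOn with
        | h x => rfl
      left_inv := fun f => rfl
      right_inv := fun F => by
        funext q
        induction q using Quotient.inductionOn with
        | h x => rfl }
  rw [e.finrank_eq, Module.finrank_pi, orb, Nat.card_eq_fintype_card]

omit [Finite X] in
theorem mem_sup_range_of_transitive [DecidableEq X] {a b c : G}
    (W : Submodule ℚ (X → ℚ)) (ha : LinearMap.range (1 - permOp X a) ≤ W)
    (hb : LinearMap.range (1 - permOp X b) ≤ W) (hc : LinearMap.range (1 - permOp X c) ≤ W)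
    (g : G) (hg : g ∈ Subgroup.closure {a, b, c}) (x : X) :
    (Pi.single x 1 - Pi.single (g • x) 1 : X → ℚ) ∈ W := by
  induction hg using Subgroup.closure_induction generalizing x with
  | mem g hg =>
    have key : (Pi.single x 1 - Pi.single (g • x) 1 : X → ℚ) =
        (1 - permOp X g) (Pi.single x 1) := by
      funext y
      simp only [Pi.sub_apply, LinearMap.sub_apply, Module.End.one_apply, permOp_apply]
      congr 1
      simp only [Pi.single_apply]
      congr 1
      rw [eq_iff_iff, inv_smul_eq_iff]
    rw [key]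
    rcases hg with rfl | rfl | rfl
    · exact ha ⟨_, rfl⟩
    · exact hb ⟨_, rfl⟩
    · exact hc ⟨_, rfl⟩
  | one => simp
  | mul g h _ _ ihg ihh =>
    rw [mul_smul]
    have := W.add_mem (ihh x) (ihg (h • x))
    simpa using this
  | inv g _ ih =>
    have := W.neg_mem (ih (g⁻¹ • x))
    simpa using this

/-- **Scott's lemma** for transitive permutation groups generated by three elements with
product one: `o(a) + o(b) + o(c) ≤ |X| + 2`. -/
theorem orb_add_orb_add_orb_le (X : Type*) [MulAction G X] [Finite X]
    [MulAction.IsPretransitive G X] {a b c : G} (habc : a * b * c = 1)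
    (hgen : Subgroup.closure {a, b, c} = ⊤) :
    orb X a + orb X b + orb X c ≤ Nat.card X + 2 := by
  classical
  rcases isEmpty_or_nonempty X with hX | ⟨⟨x₀⟩⟩
  · have h1 : ∀ g : G, orb X g = 0 := fun g => by
      rw [orb]
      have : IsEmpty (MulAction.orbitRel.Quotient (Subgroup.zpowers g) X) :=
        ⟨fun q => by
          induction q using Quotient.inductionOn with
          | h x => exact hX.elim x⟩
      exact Nat.card_of_isEmpty
    simp [h1]
  have : Fintype X := Fintype.ofFinite _
  set A := permOp X a with hA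
  set B := permOp X b with hB
  set C := permOp X c with hC
  have hABC : A * B * C = 1 := by
    rw [hA, hB, hC, ← permOp_mul, ← permOp_mul, habc]
    ext f x
    simp [permOp, LinearMap.funLeft]
  have h1 := scott_linear A B C hABC
  have hrA : finrank ℚ (LinearMap.range (1 - A)) + orb X a = Nat.card X := by
    rw [← finrank_ker_permOp a, LinearMap.finrank_range_add_finrank_ker, Module.finrank_pi,
      Nat.card_eq_fintype_card]
  have hrB : finrank ℚ (LinearMap.range (1 - B)) + orb X b = Nat.card X := by
    rw [← finrank_ker_permOp b, LinearMap.finrank_range_add_finrank_ker, Module.finrank_pi,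
      Nat.card_eq_fintype_card]
  have hrC : finrank ℚ (LinearMap.range (1 - C)) + orb X c = Nat.card X := by
    rw [← finrank_ker_permOp c, LinearMap.finrank_range_add_finrank_ker, Module.finrank_pi,
      Nat.card_eq_fintype_card]
  have hV : finrank ℚ (X → ℚ) = Nat.card X := by
    rw [Module.finrank_pi, Nat.card_eq_fintype_card]
  set W : Submodule ℚ (X → ℚ) :=
    LinearMap.range (1 - A) ⊔ LinearMap.range (1 - B) ⊔ LinearMap.range (1 - C) with hW
  -- the invariants are the constants
  have hinv : finrank ℚ (LinearMap.ker (1 - A) ⊓ LinearMap.ker (1 - B) ⊓ LinearMap.ker (1 - C) :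
      Submodule ℚ (X → ℚ)) ≤ 1 := by
    have hle : (LinearMap.ker (1 - A) ⊓ LinearMap.ker (1 - B) ⊓ LinearMap.ker (1 - C) :
        Submodule ℚ (X → ℚ)) ≤ Submodule.span ℚ {fun _ => 1} := by
      intro f hf
      rw [Submodule.mem_inf, Submodule.mem_inf, hA, hB, hC, mem_ker_permOp_iff,
        mem_ker_permOp_iff, mem_ker_permOp_iff] at hf
      obtain ⟨⟨h2, h3⟩, h4⟩ := hf
      have h5 : ∀ g : G, ∀ x, f (g • x) = f x := by
        intro g
        have hg : g ∈ Subgroup.closure {a, b, c} := by rw [hgen]; trivial
        induction hg using Subgroup.closure_induction with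
        | mem g hg =>
          rcases hg with rfl | rfl | rfl
          · exact h2
          · exact h3
          · exact h4
        | one => simp
        | mul g h _ _ ihg ihh => intro x; rw [mul_smul, ihg, ihh]
        | inv g _ ih => intro x; rw [← ih (g⁻¹ • x), smul_inv_smul]
      rw [Submodule.mem_span_singleton]
      refine ⟨f x₀, ?_⟩
      funext x
      obtain ⟨g, rfl⟩ := MulAction.exists_smul_eq G x₀ x
      simp [h5]
    exact (Submodule.finrank_mono hle).trans ((finrank_span_le_card _).trans (by simp))
  -- the sum of the ranges has codimension at most one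
  have hcod : Nat.card X ≤ finrank ℚ W + 1 := by
    have htop : W ⊔ Submodule.span ℚ {Pi.single x₀ 1} = ⊤ := by
      rw [eq_top_iff]
      intro f _
      rw [← Finset.univ_sum_single f]
      refine Submodule.sum_mem _ fun x _ => ?_
      obtain ⟨g, rfl⟩ := MulAction.exists_smul_eq G x₀ x
      have h6 : (Pi.single x₀ 1 - Pi.single (g • x₀) 1 : X → ℚ) ∈ W :=
        mem_sup_range_of_transitive W (le_sup_left.trans le_sup_left)
          (le_sup_right.trans le_sup_left) le_sup_right g (by rw [hgen]; trivial) x₀
      have h7 : (Pi.single (g • x₀) (f (g • x₀)) : X → ℚ) =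
          f (g • x₀) • (Pi.single x₀ 1 : X → ℚ) -
            f (g • x₀) • (Pi.single x₀ 1 - Pi.single (g • x₀) 1 : X → ℚ) := by
        rw [smul_sub, sub_sub_cancel, ← Pi.single_smul]
        simp
      rw [h7]
      refine Submodule.sub_mem _ ?_ ?_
      · exact Submodule.mem_sup_right (Submodule.smul_mem _ _ (Submodule.mem_span_singleton_self _))
      · exact Submodule.mem_sup_left (Submodule.smul_mem _ _ h6)
    have h8 := Submodule.finrank_add_le_finrank_add_finrank W
      (Submodule.span ℚ {(Pi.single x₀ 1 : X → ℚ)})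
    rw [htop, finrank_top, hV] at h8
    exact h8.trans (Nat.add_le_add_left ((finrank_span_le_card _).trans (by simp)) _)
  omega

theorem orb_toPerm (g : G) : orb X (MulAction.toPerm g : Equiv.Perm X) = orb X g := by
  rw [← finrank_ker_permOp, ← finrank_ker_permOp]
  congr 3

end Orbits

section Sign

open Equiv Equiv.Perm

variable {X : Type*} [DecidableEq X]

omit [DecidableEq X] in
/-- Multiplying by a transposition of two points in different cycles merges the cycles. -/
theorem sameCycle_mul_swap [Finite X] [DecidableEq X] {σ : Perm X} {x y : X}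
    (h : ¬ σ.SameCycle x y) : (σ * swap x y).SameCycle x y := by
  set ρ := σ * swap x y with hρ
  have key : ∀ k : ℕ, ρ.SameCycle x ((σ ^ (k + 1)) y) := by
    intro k
    induction k with
    | zero =>
      refine ⟨1, ?_⟩
      simp [hρ]
    | succ k ih =>
      by_cases hy : (σ ^ (k + 1)) y = y
      · rw [pow_succ', Perm.mul_apply, hy]
        refine ⟨1, ?_⟩
        simp [hρ]
      · have hx : (σ ^ (k + 1)) y ≠ x := by
          intro hx
          exact h (SameCycle.symm ⟨((k + 1 : ℕ) : ℤ), by rw [zpow_natCast]; exact hx⟩)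
        have : (σ ^ (k + 1 + 1)) y = ρ ((σ ^ (k + 1)) y) := by
          rw [pow_succ' σ (k + 1), Perm.mul_apply, hρ, Perm.mul_apply,
            swap_apply_of_ne_of_ne hx hy]
        rw [this]
        exact ih.apply_right
  have hpos : 0 < orderOf σ := orderOf_pos σ
  have := key (orderOf σ - 1)
  rwa [Nat.sub_add_cancel hpos, pow_orderOf_eq_one, Perm.one_apply] at this

omit [DecidableEq X] in
/-- Multiplying by a transposition of two points in the same cycle splits the cycle. -/
theorem not_sameCycle_mul_swap [Finite X] [DecidableEq X] {σ : Perm X} {x y : X} (hxy : x ≠ y)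
    (h : σ.SameCycle x y) : ¬ (σ * swap x y).SameCycle x y := by
  set ρ := σ * swap x y with hρ
  obtain ⟨n, hn⟩ := h.symm.exists_nat_pow_eq
  have hex : ∃ l, 1 ≤ l ∧ ((σ ^ l) y = x ∨ (σ ^ l) y = y) := by
    refine ⟨n, ?_, Or.inl hn⟩
    rcases Nat.eq_zero_or_pos n with h0 | h0
    · subst h0
      exact absurd hn.symm hxy
    · exact h0
  classical
  obtain ⟨hl1, hl2⟩ := Nat.find_spec hex
  have hmin : ∀ m, 1 ≤ m → m < Nat.find hex → (σ ^ m) y ≠ x ∧ (σ ^ m) y ≠ y := by
    intro m hm1 hm2
    have := Nat.find_min hex hm2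
    push Not at this
    exact this hm1
  set l := Nat.find hex with hl
  have hlx : (σ ^ l) y = x := by
    rcases hl2 with h2 | h2
    · exact h2
    · exfalso
      -- the orbit of y does not contain x
      have h3 : (σ ^ (n % l)) y = x := by
        rw [← hn, ← Nat.mod_add_div n l, pow_add, pow_mul, Perm.mul_apply,
          Nat.add_mul_mod_self_left, Nat.mod_mod]
        congr 1
        clear_value l
        induction n / l with
        | zero => simp
        | succ k ih => rw [pow_succ, Perm.mul_apply, h2]; exact ih
      have h4 : n % l < l := Nat.mod_lt _ hl1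
      rcases Nat.eq_zero_or_pos (n % l) with h5 | h5
      · rw [h5] at h3
        exact hxy h3.symm
      · exact (hmin _ h5 h4).1 h3
  have key : ∀ i, 1 ≤ i → i ≤ l → (ρ ^ i) x = (σ ^ i) y := by
    intro i hi
    induction i, hi using Nat.le_induction with
    | base => intro _; simp [hρ]
    | succ i hi ih =>
      intro hil
      have h6 := hmin i hi (by omega)
      rw [pow_succ' ρ, Perm.mul_apply, ih (by omega), hρ, Perm.mul_apply,
        swap_apply_of_ne_of_ne h6.1 h6.2, pow_succ' σ, Perm.mul_apply]
  have hρl : (ρ ^ l) x = x := by rw [key l hl1 le_rfl, hlx]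
  intro hc
  obtain ⟨m, hm⟩ := hc.exists_nat_pow_eq
  have h3 : (ρ ^ (m % l)) x = y := by
    rw [← hm, ← Nat.mod_add_div m l, pow_add, pow_mul, Perm.mul_apply,
      Nat.add_mul_mod_self_left, Nat.mod_mod]
    congr 1
    clear_value l
    induction m / l with
    | zero => simp
    | succ k ih => rw [pow_succ, Perm.mul_apply, hρl]; exact ih
  have h4 : m % l < l := Nat.mod_lt _ hl1
  rcases Nat.eq_zero_or_pos (m % l) with h5 | h5
  · rw [h5] at h3
    exact hxy h3
  · rw [key _ h5 h4.le] at h3
    exact (hmin _ h5 h4).2 h3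

/-- The linear form `f ↦ f x - f y`. -/
def evalDiff {X : Type*} (x y : X) : (X → ℚ) →ₗ[ℚ] ℚ :=
  (LinearMap.proj x : (X → ℚ) →ₗ[ℚ] ℚ) - (LinearMap.proj y : (X → ℚ) →ₗ[ℚ] ℚ)

omit [DecidableEq X] in
theorem evalDiff_apply (x y : X) (f : X → ℚ) : evalDiff x y f = f x - f y := rfl

omit [DecidableEq X] in
theorem finrank_ker_inf_of_not_le [Finite X] {x y : X} {K : Submodule ℚ (X → ℚ)}
    (hK : ¬ K ≤ LinearMap.ker (evalDiff x y)) :
    finrank ℚ (K ⊓ LinearMap.ker (evalDiff x y) : Submodule ℚ (X → ℚ)) + 1 =
      finrank ℚ K := by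
  have : Fintype X := Fintype.ofFinite _
  set φ : (X → ℚ) →ₗ[ℚ] ℚ := evalDiff x y with hφ
  let ψ : K →ₗ[ℚ] ℚ := φ ∘ₗ K.subtype
  have h1 := LinearMap.finrank_range_add_finrank_ker ψ
  have h2 : LinearMap.range ψ = ⊤ := by
    rw [LinearMap.range_eq_top]
    apply LinearMap.surjective
    intro h0
    apply hK
    intro f hf
    have := LinearMap.congr_fun h0 ⟨f, hf⟩
    simpa [ψ] using this
  have h3 : finrank ℚ (LinearMap.ker ψ) = finrank ℚ (K ⊓ LinearMap.ker φ : Submodule ℚ (X → ℚ)) := by
    have h4 : LinearMap.ker ψ = Submodule.comap K.subtype (LinearMap.ker φ) := by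
      ext f; simp [ψ]
    rw [h4]
    have h5 : Submodule.map K.subtype (Submodule.comap K.subtype (LinearMap.ker φ)) =
        K ⊓ LinearMap.ker φ := Submodule.map_comap_subtype _ _
    rw [← h5]
    exact (LinearEquiv.finrank_eq (Submodule.equivMapOfInjective K.subtype
      K.injective_subtype _))
  rw [h2, finrank_top, Module.finrank_self, h3] at h1
  omega

theorem orb_mul_swap [Finite X] (σ : Perm X) {x y : X} (hxy : x ≠ y) :
    orb X (σ * swap x y) = orb X σ + 1 ∨ orb X σ = orb X (σ * swap x y) + 1 := by
  set φ : (X → ℚ) →ₗ[ℚ] ℚ := evalDiff x y with hφ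
  have hle : ∀ ρ : Perm X, LinearMap.ker (1 - permOp X ρ) ≤ LinearMap.ker φ ↔
      ρ.SameCycle x y := by
    intro ρ
    constructor
    · intro h
      by_contra hc
      classical
      have h1 : (fun z => if ρ.SameCycle x z then (1 : ℚ) else 0) ∈
          LinearMap.ker (1 - permOp X ρ) := by
        rw [mem_ker_permOp_iff]
        intro z
        simp only [Perm.smul_def, sameCycle_apply_right]
      have h2 := h h1
      simp [hφ, hc, evalDiff_apply, SameCycle.refl] at h2
    · rintro ⟨n, hn⟩ f hf
      rw [mem_ker_permOp_iff] at hf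
      have := invariant_zpow hf n x
      rw [Perm.smul_def, hn] at this
      simp [hφ, this, evalDiff_apply]
  have heq : LinearMap.ker (1 - permOp X (σ * swap x y)) ⊓ LinearMap.ker φ =
      LinearMap.ker (1 - permOp X σ) ⊓ LinearMap.ker φ := by
    have hswap : ∀ f : X → ℚ, f ∈ LinearMap.ker φ → ∀ z, f (swap x y z) = f z := by
      intro f hf z
      have hf' : f x = f y := by
        simpa [hφ, sub_eq_zero, evalDiff_apply] using hf
      rcases eq_or_ne z x with rfl | hx
      · rw [swap_apply_left, hf']
      · rcases eq_or_ne z y with rfl | hy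
        · rw [swap_apply_right, hf']
        · rw [swap_apply_of_ne_of_ne hx hy]
    ext f
    simp only [Submodule.mem_inf, mem_ker_permOp_iff, Perm.smul_def, Perm.mul_apply]
    constructor
    · rintro ⟨h1, h2⟩
      refine ⟨fun z => ?_, h2⟩
      have := h1 (swap x y z)
      rwa [Equiv.swap_apply_self, hswap f h2] at this
    · rintro ⟨h1, h2⟩
      refine ⟨fun z => ?_, h2⟩
      rw [h1, hswap f h2]
  rw [← finrank_ker_permOp, ← finrank_ker_permOp]
  by_cases hc : σ.SameCycle x y
  · left
    have h1 := (hle σ).mpr hc
    have h2 : ¬ LinearMap.ker (1 - permOp X (σ * swap x y)) ≤ LinearMap.ker φ := fun h =>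
      not_sameCycle_mul_swap hxy hc ((hle _).mp h)
    have h3 := finrank_ker_inf_of_not_le h2
    rw [heq, inf_eq_left.mpr h1] at h3
    exact h3.symm
  · right
    have h1 := (hle _).mpr (sameCycle_mul_swap hc)
    have h2 : ¬ LinearMap.ker (1 - permOp X σ) ≤ LinearMap.ker φ := fun h =>
      hc ((hle _).mp h)
    have h3 := finrank_ker_inf_of_not_le h2
    rw [← heq, inf_eq_left.mpr h1] at h3
    exact h3.symm

/-- The sign of a permutation is `(-1) ^ (|X| + number of orbits)`. -/
theorem sign_eq_neg_one_pow [Fintype X] (σ : Perm X) :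
    Perm.sign σ = (-1) ^ (Nat.card X + orb X σ) := by
  induction σ using Perm.swap_induction_on' with
  | one =>
    have h1 : orb X (1 : Perm X) = Nat.card X := by
      rw [← finrank_ker_permOp]
      have h2 : LinearMap.ker (1 - permOp X (1 : Perm X)) = ⊤ := by
        rw [eq_top_iff]
        intro f _
        rw [mem_ker_permOp_iff]
        simp
      rw [h2, finrank_top, Module.finrank_pi, Nat.card_eq_fintype_card]
    rw [h1, ← two_mul, pow_mul]
    simp
  | mul_swap f x y hxy ih =>
    rw [Perm.sign_mul, Perm.sign_swap hxy, ih]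
    rcases orb_mul_swap f hxy with h | h
    · rw [h, ← add_assoc, pow_succ]
    · rw [h, ← add_assoc, pow_succ]
      simp

end Sign

section Parity

variable {G : Type*} [Group G]

/-- For three group elements with product one acting on a finite set, the sum of the numbers of
orbits has the same parity as the size of the set. -/
theorem even_card_add_orb (X : Type*) [MulAction G X] [Finite X] {a b c : G}
    (habc : a * b * c = 1) : Even (Nat.card X + (orb X a + orb X b + orb X c)) := by
  classical
  have : Fintype X := Fintype.ofFinite _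
  have h1 : Equiv.Perm.sign (MulAction.toPermHom G X a) *
      Equiv.Perm.sign (MulAction.toPermHom G X b) *
      Equiv.Perm.sign (MulAction.toPermHom G X c) = 1 := by
    rw [← Equiv.Perm.sign_mul, ← Equiv.Perm.sign_mul, ← map_mul, ← map_mul, habc, map_one,
      Equiv.Perm.sign_one]
  have h2 : ∀ g : G, Equiv.Perm.sign (MulAction.toPermHom G X g) =
      (-1) ^ (Nat.card X + orb X g) := by
    intro g
    rw [sign_eq_neg_one_pow]
    congr 2
    exact orb_toPerm g
  rw [h2, h2, h2, ← pow_add, ← pow_add] at h1
  have h3 : Even (Nat.card X + orb X a + (Nat.card X + orb X b) + (Nat.card X + orb X c)) := by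
    by_contra hodd
    rw [Nat.not_even_iff_odd] at hodd
    rw [hodd.neg_one_pow] at h1
    exact absurd h1 (by decide)
  have h4 : Nat.card X + orb X a + (Nat.card X + orb X b) + (Nat.card X + orb X c) =
      Nat.card X + (orb X a + orb X b + orb X c) + 2 * Nat.card X := by ring
  rw [h4, Nat.even_add] at h3
  exact h3.mpr (even_two_mul _)

end Parity

end Fermat.Agent.Comb
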